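import Fermat.Agent.TWPrimes.Euler.Target
import Fermat.Agent.TWPrimes.Euler.Sha2
import Fermat.Agent.TWPrimes.Line.Exists
import Fermat.Agent.TWPrimes.Units.Target
import Fermat.Agent.TWPrimes.Count.Target
import Fermat.Agent.TWPrimes.Primes.Target

/-!
# The bound for framed tangent spaces with auxiliary primes
-/

set_option autoImplicit false

noncomputable section

namespace FLTAgent.TWPrimes

theorem targetEuler_all : TargetEuler :=
  targetEuler targetDev_all targetUnits targetLine targetLineFacts

theorem targetTWBound_all : TargetTWBound :=
  targetTWBound targetEuler_all targetCyc targetPrimes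

end FLTAgent.TWPrimes
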