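import Fermat.Agent.PoitouTate.Targets
import Fermat.Agent.FlatLocal.Interface

/-!
# Taylor-Wiles primes for a residual representation over a finite field: interface

All cohomology is written with level constant cochains over the prime field, in the language of
the Poitou-Tate package. The global lower bound for the dual classes is obtained at the level of
the rationals: modules induced from the stabiliser of a line are filtered by induced lines, whose
bound comes from units, and the complement of the trivial summand is projective.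
-/

set_option autoImplicit false

noncomputable section

open scoped Pointwise

namespace FLTAgent.TWPrimes

open FLTAgent.PoitouTate

local notation "LL" => AlgebraicClosure ℚ
local notation "GG" => (AlgebraicClosure ℚ ≃ₐ[ℚ] AlgebraicClosure ℚ)
local notation "VS" => ValuationSubring (AlgebraicClosure ℚ)
local notation "Dec" => ValuationSubring.decompositionSubgroup ℚ
local notation "pP" => ExtCitation.pPrime

variable {p : ℕ} [Fact p.Prime]

/-! ### General notions -/

section General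

variable {A : Type} [AddCommGroup A] [Module (ZMod p) A] (ρ : Representation (ZMod p) GG A)

/-- The vectors fixed by a subgroup. -/
def inv (H : Subgroup GG) : Submodule (ZMod p) A :=
  ⨅ g ∈ H, LinearMap.ker (ρ g - LinearMap.id)

/-- A complex conjugation. -/
def IsCC (c : GG) : Prop :=
  ∃ ι : LL →+* ℂ, ∀ x : LL, ι (c x) = starRingEnd ℂ (ι x)

/-- The local terms of the Euler characteristic. -/
def locTerm (S : Finset Nat.Primes) (V : Nat.Primes → VS) (c : GG) : ℕ :=
  (∑ q ∈ S, Module.finrank (ZMod p) ↥(inv ρ (Dec (V q)))) +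
    Module.finrank (ZMod p) ↥(inv ρ (Subgroup.zpowers c))

variable {A' : Type} [AddCommGroup A'] [Module (ZMod p) A'] (ρ' : Representation (ZMod p) GG A')

/-- For all large sets of primes, the global Euler characteristic inequality for the cocycles of
`ρ` with local terms from the dual `ρ'`. -/
def EulerGE : Prop :=
  ∃ S₀ : Finset Nat.Primes, pP p ∈ S₀ ∧ ∀ S : Finset Nat.Primes, S₀ ⊆ S →
    ∀ V : Nat.Primes → VS, (∀ q, (V q).LiesOverPrime (q : ℕ)) → ∀ c : GG, IsCC c →
      FiniteDimensional (ZMod p) ↥(Z1S ρ (MonoidHom.id GG) S) ∧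
      Module.finrank (ZMod p) A + locTerm ρ' S V c ≤
        Module.finrank (ZMod p) ↥(Z1S ρ (MonoidHom.id GG) S) +
          Module.finrank (ZMod p) ↥(inv ρ' ⊤)

/-- The opposite inequality. -/
def EulerLE : Prop :=
  ∃ S₀ : Finset Nat.Primes, pP p ∈ S₀ ∧ ∀ S : Finset Nat.Primes, S₀ ⊆ S →
    ∀ V : Nat.Primes → VS, (∀ q, (V q).LiesOverPrime (q : ℕ)) → ∀ c : GG, IsCC c →
      FiniteDimensional (ZMod p) ↥(Z1S ρ (MonoidHom.id GG) S) ∧
      Module.finrank (ZMod p) ↥(Z1S ρ (MonoidHom.id GG) S) +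
          Module.finrank (ZMod p) ↥(inv ρ' ⊤) ≤
        Module.finrank (ZMod p) A + locTerm ρ' S V c

/-- A cocycle factoring through `N` which is a coboundary at every element is a coboundary. -/
def CycDetect (N : Subgroup GG) : Prop :=
  ∀ c : GG → A, (∀ g h, c (g * h) = c g + ρ g (c h)) → (∀ n ∈ N, c n = 0) →
    (∀ g, ∃ m : A, c g = ρ g m - m) → c ∈ B1 ρ (MonoidHom.id GG)

/-- An invariant vector which lifts to a fixed vector of each element lifts to an invariant
vector. -/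
def CycLift (π : A →ₗ[ZMod p] A') : Prop :=
  ∀ a ∈ inv ρ' (⊤ : Subgroup GG), (∀ g, ∃ b, ρ g b = b ∧ π b = a) →
    ∃ b ∈ inv ρ (⊤ : Subgroup GG), π b = a

end General

/-- Units: the inequality for modules induced from a line, and the opposite one for projective
modules. -/
def TargetUnits : Prop :=
  ∀ (p : ℕ) [Fact p.Prime], p ≠ 2 →
    ∀ (S₁ : Finset Nat.Primes) (F : SField p S₁) [Fintype F.Γ] (A A' : Type) [AddCommGroup A]
      [Module (ZMod p) A] [AddCommGroup A'] [Module (ZMod p) A'] [FiniteDimensional (ZMod p) A]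
      [FiniteDimensional (ZMod p) A'] (ρ : Representation (ZMod p) GG A)
      (ρ' : Representation (ZMod p) GG A'), DualPair ρ ρ' → F.Triv ρ → F.Triv ρ' →
      (∀ e : A →ₗ[ZMod p] A, (∑ x : F.Γ, ρ x.out ∘ₗ e ∘ₗ ρ x.out⁻¹) = LinearMap.id →
        EulerLE ρ ρ') ∧
      (∀ (H Pn : Subgroup GG) [Fintype (GG ⧸ H)], F.N ≤ Pn → Pn ≤ H →
        (∀ h ∈ H, ∀ u ∈ Pn, h * u * h⁻¹ ∈ Pn) → ¬ p ∣ Pn.relIndex H → (∀ u ∈ Pn, om p u = 1) →
        ∀ e : A →ₗ[ZMod p] A, e ∘ₗ e = e → (∀ h ∈ H, ρ h ∘ₗ e = e ∘ₗ ρ h) →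
          (∀ u ∈ Pn, ρ u ∘ₗ e = e) → (∀ g, g ∉ H → e ∘ₗ ρ g ∘ₗ e = 0) →
          (∑ x : GG ⧸ H, ρ x.out ∘ₗ e ∘ₗ ρ x.out⁻¹) = LinearMap.id →
          EulerGE ρ ρ')

/-- Dévissage: the inequality passes to extensions. -/
def TargetDev : Prop :=
  ∀ (p : ℕ) [Fact p.Prime], p ≠ 2 →
    ∀ (S₁ : Finset Nat.Primes) (F : SField p S₁) (A A' B B' C C' : Type)
      [AddCommGroup A] [Module (ZMod p) A] [AddCommGroup A'] [Module (ZMod p) A']
      [AddCommGroup B] [Module (ZMod p) B] [AddCommGroup B'] [Module (ZMod p) B']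
      [AddCommGroup C] [Module (ZMod p) C] [AddCommGroup C'] [Module (ZMod p) C']
      [FiniteDimensional (ZMod p) A] [FiniteDimensional (ZMod p) A']
      [FiniteDimensional (ZMod p) B] [FiniteDimensional (ZMod p) B']
      [FiniteDimensional (ZMod p) C] [FiniteDimensional (ZMod p) C']
      (α : Representation (ZMod p) GG A) (α' : Representation (ZMod p) GG A')
      (β : Representation (ZMod p) GG B) (β' : Representation (ZMod p) GG B')
      (γ : Representation (ZMod p) GG C) (γ' : Representation (ZMod p) GG C')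
      (PA : DualPair α α') (PB : DualPair β β') (PC : DualPair γ γ')
      (i : A →ₗ[ZMod p] B) (π : B →ₗ[ZMod p] C) (i' : C' →ₗ[ZMod p] B') (π' : B' →ₗ[ZMod p] A'),
      (∀ g a, i (α g a) = β g (i a)) → (∀ g b, π (β g b) = γ g (π b)) →
      (∀ g c, i' (γ' g c) = β' g (i' c)) → (∀ g b, π' (β' g b) = α' g (π' b)) →
      Function.Injective i → Function.Surjective π → LinearMap.ker π = LinearMap.range i →
      Function.Injective i' → Function.Surjective π' → LinearMap.ker π' = LinearMap.range i' →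
      (∀ a b, PB.e (i a) b = PA.e a (π' b)) → (∀ b c, PC.e (π b) c = PB.e b (i' c)) →
      F.Triv β → F.Triv β' → CycDetect α' F.N → CycLift β' α' π' →
      EulerGE α α' → EulerGE γ γ' → EulerGE β β'

/-! ### The residual representation -/

/-- A residual representation over a finite field. -/
structure Datum (p : ℕ) [Fact p.Prime] (k : Type) [Field k] [Algebra (ZMod p) k] where
  ne_two : p ≠ 2
  rb : GG →* GL (Fin 2) k
  level : ∃ L : IntermediateField ℚ LL, FiniteDimensional ℚ L ∧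
    ∀ σ : GG, (∀ x ∈ L, σ x = x) → rb σ = 1
  det_cyclo : ∀ σ : GG,
    Matrix.det (rb σ : Matrix (Fin 2) (Fin 2) k) = algebraMap (ZMod p) k (om p σ)
  split : ∀ σ : GG, ∃ a b : k, Matrix.trace (rb σ : Matrix (Fin 2) (Fin 2) k) = a + b ∧
    Matrix.det (rb σ : Matrix (Fin 2) (Fin 2) k) = a * b
  irred : ∀ v : Fin 2 → k, v ≠ 0 →
    ∃ σ : GG, ∀ a : k, Matrix.mulVec (rb σ : Matrix (Fin 2) (Fin 2) k) v ≠ a • v
  irred_two : ∀ H : Subgroup GG, H.index = 2 → ∀ v : Fin 2 → k, v ≠ 0 →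
    ∃ σ ∈ H, ∀ a : k, Matrix.mulVec (rb σ : Matrix (Fin 2) (Fin 2) k) v ≠ a • v
  bad : Finset Nat.Primes
  p_mem : pP p ∈ bad
  unramified : ∀ q : Nat.Primes, q ∉ bad → ∀ V : VS, V.LiesOverPrime (q : ℕ) →
    ∀ σ ∈ V.inertiaSubgroupIn ℚ, rb σ = 1

section Residual

variable {k : Type} [Field k] [Algebra (ZMod p) k] (D : Datum p k)

/-- The trace zero matrices. -/
abbrev W (k : Type) [Field k] : Type := ↥(FLTAgent.Lowering.P1.Datum.trZero k)

/-- Conjugation followed by the power `e` of the cyclotomic character, on all matrices. -/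
def adM (e : ℕ) (σ : GG) (A : Matrix (Fin 2) (Fin 2) k) : Matrix (Fin 2) (Fin 2) k :=
  algebraMap (ZMod p) k (om p σ ^ e) •
    ((D.rb σ : Matrix (Fin 2) (Fin 2) k) * A * ((D.rb σ)⁻¹ : GL (Fin 2) k).val)

theorem trace_adM (e : ℕ) (σ : GG) (A : Matrix (Fin 2) (Fin 2) k)
    (h : Matrix.trace A = 0) : Matrix.trace (adM D e σ A) = 0 := by
  rw [adM, Matrix.trace_smul, Matrix.trace_mul_comm, ← Matrix.mul_assoc, ← Units.val_mul,
    inv_mul_cancel, Units.val_one, Matrix.one_mul, h, smul_zero]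

/-- The twisted adjoint action over the coefficient field. -/
def adL (e : ℕ) (σ : GG) : W k →ₗ[k] W k where
  toFun A := ⟨adM D e σ A.1, LinearMap.mem_ker.2 (trace_adM D e σ A.1 (LinearMap.mem_ker.1 A.2))⟩
  map_add' A B := Subtype.ext (by simp [adM, mul_add, add_mul, smul_add])
  map_smul' a A := Subtype.ext (by
    simp [adM, smul_comm a])

theorem adL_val (e : ℕ) (σ : GG) (A : W k) : (adL D e σ A).1 = adM D e σ A.1 := rfl

/-- The twisted adjoint representation over the prime field. -/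
def ad (e : ℕ) : Representation (ZMod p) GG (W k) where
  toFun σ := (adL D e σ).restrictScalars (ZMod p)
  map_one' := LinearMap.ext fun A => Subtype.ext (by
    show adM D e 1 A.1 = A.1
    simp [adM, om])
  map_mul' σ τ := LinearMap.ext fun A => Subtype.ext (by
    show adM D e (σ * τ) A.1 = adM D e σ (adM D e τ A.1)
    have h : om p (σ * τ) = om p σ * om p τ := by simp [om]
    simp only [adM, h, mul_pow, map_mul, Matrix.mul_smul, Matrix.smul_mul, smul_smul,
      mul_inv_rev, Units.val_mul, Matrix.mul_assoc])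

/-- The dimension of the field over the prime field. -/
abbrev deg (k : Type) [Field k] [Algebra (ZMod p) k] : ℕ := Module.finrank (ZMod p) k

/-- A prime usable at level `n`. -/
def IsAux (n : ℕ) (q : Nat.Primes) : Prop :=
  q ∉ D.bad ∧ p ^ (n + 1) ∣ (q : ℕ) - 1 ∧
    ∀ V : VS, V.LiesOverPrime (q : ℕ) → ∀ φ : GG, V.IsFrobeniusAt φ (q : ℕ) →
      ∃ a b : k, a ≠ b ∧ Matrix.trace (D.rb φ : Matrix (Fin 2) (Fin 2) k) = a + b ∧
        Matrix.det (D.rb φ : Matrix (Fin 2) (Fin 2) k) = a * b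

/-- The cocycle with values in the matrices behind a cochain. -/
def mat {G : Type} (c : G → W k) (g : G) : Matrix (Fin 2) (Fin 2) k := (c g).1

/-- The residual representation on a decomposition group, on vectors. -/
def actR (V : VS) (σ : ↥(Dec V)) : Module.End k (Fin 2 → k) :=
  (D.rb (σ : GG) : Matrix (Fin 2) (Fin 2) k).mulVecLin

/-- The lift `(1 + ε c) rb` on `x + ε v`. -/
def actC (V : VS) (c : ↥(Dec V) → W k) (σ : ↥(Dec V)) :
    Module.End k ((Fin 2 → k) × (Fin 2 → k)) :=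
  LinearMap.prod ((D.rb (σ : GG) : Matrix (Fin 2) (Fin 2) k).mulVecLin ∘ₗ LinearMap.fst _ _ _)
    ((D.rb (σ : GG) : Matrix (Fin 2) (Fin 2) k).mulVecLin ∘ₗ LinearMap.snd _ _ _ +
      ((c σ).1 * (D.rb (σ : GG) : Matrix (Fin 2) (Fin 2) k)).mulVecLin ∘ₗ LinearMap.fst _ _ _)

/-- A local space of cocycles containing the coboundaries. -/
def IsLoc (V : VS) (L : Submodule (ZMod p) (↥(Dec V) → W k)) : Prop :=
  L ≤ Z1 (ad D 0) (Dec V).subtype ∧ B1 (ad D 0) (Dec V).subtype ≤ L ∧
    FiniteDimensional (ZMod p) ↥L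

end Residual

/-! ### The parts -/

/-- The strictly ordinary local bound: a line with character `x` squaring to the square of the
cyclotomic one lifts to a stable line. -/
def TargetOrd : Prop :=
  ∀ (p : ℕ) [Fact p.Prime] (k : Type) [Field k] [Finite k] [Algebra (ZMod p) k] (D : Datum p k)
    (V : VS), V.LiesOverPrime p →
    ∀ (v₀ : Fin 2 → k) (x : ↥(Dec V) → k), v₀ ≠ 0 →
      (∀ σ : ↥(Dec V), Matrix.mulVec (D.rb (σ : GG) : Matrix (Fin 2) (Fin 2) k) v₀ = x σ • v₀ ∧
        x σ ^ 2 = algebraMap (ZMod p) k (om p (σ : GG)) ^ 2) →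
      ∃ L, IsLoc D V L ∧ Module.finrank (ZMod p) ↥L ≤ 4 * deg (p := p) k ∧
        ∀ c ∈ Z1 (ad D 0) (Dec V).subtype, (∃ v₁ : Fin 2 → k, ∀ σ : ↥(Dec V),
          Matrix.mulVec (c σ).1 (Matrix.mulVec (D.rb (σ : GG) : Matrix (Fin 2) (Fin 2) k) v₀) +
            Matrix.mulVec (D.rb (σ : GG) : Matrix (Fin 2) (Fin 2) k) v₁ = x σ • v₁) → c ∈ L

/-- The flat local bound. -/
def TargetFlat : Prop :=
  ∀ (p : ℕ) [Fact p.Prime] (k : Type) [Field k] [Finite k] [Algebra (ZMod p) k] (D : Datum p k)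
    (V : VS), V.LiesOverPrime p → FlatLocal.FlatI V (actR D V) →
      ∃ L, IsLoc D V L ∧ Module.finrank (ZMod p) ↥L ≤ 4 * deg (p := p) k ∧
        ∀ c ∈ Z1 (ad D 0) (Dec V).subtype, FlatLocal.FlatI V (actC D V c) → c ∈ L

/-- The bound at a ramified prime with unipotent inertia. -/
def TargetUnip : Prop :=
  ∀ (p : ℕ) [Fact p.Prime] (k : Type) [Field k] [Finite k] [Algebra (ZMod p) k] (D : Datum p k)
    (q : Nat.Primes) (V : VS), (q : ℕ) ≠ p → V.LiesOverPrime (q : ℕ) →
      (∃ σ ∈ V.inertiaSubgroupIn ℚ, D.rb σ ≠ 1) →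
      (∀ σ ∈ V.inertiaSubgroupIn ℚ, ((D.rb σ : Matrix (Fin 2) (Fin 2) k) - 1) ^ 2 = 0) →
      ∃ L, IsLoc D V L ∧ Module.finrank (ZMod p) ↥L ≤ 3 * deg (p := p) k ∧
        ∀ c ∈ Z1 (ad D 0) (Dec V).subtype,
          (∀ σ : ↥(Dec V), (σ : GG) ∈ V.inertiaSubgroupIn ℚ →
            Matrix.trace ((c σ).1 * (D.rb (σ : GG) : Matrix (Fin 2) (Fin 2) k)) = 0) → c ∈ L

/-- The group theory: classes of the image. -/
def TargetCyc : Prop :=
  ∀ (p : ℕ) [Fact p.Prime] (k : Type) [Field k] [Finite k] [Algebra (ZMod p) k] (D : Datum p k),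
    CycDetect (ad D 0) D.rb.ker ∧
    ∀ c : GG → W k, (∀ g h, c (g * h) = c g + ad D 1 g (c h)) → (∀ n, D.rb n = 1 → c n = 0) →
      c ∈ B1 (ad D 1) (MonoidHom.id GG)

/-- Auxiliary primes exist, and see every class of the twisted adjoint representation. -/
def TargetPrimes : Prop :=
  ∀ (p : ℕ) [Fact p.Prime] (k : Type) [Field k] [Finite k] [Algebra (ZMod p) k] (D : Datum p k)
    (n : ℕ) (avoid : Finset Nat.Primes),
    (∃ q, q ∉ avoid ∧ IsAux D n q) ∧
    ∀ (S : Finset Nat.Primes), ∀ c ∈ Z1S (ad D 1) (MonoidHom.id GG) S,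
      c ∉ B1 (ad D 1) (MonoidHom.id GG) →
      ∃ q, q ∉ avoid ∧ IsAux D n q ∧ ∀ V : VS, V.LiesOverPrime (q : ℕ) →
        res1 (p := p) (Dec V).subtype c ∉ B1 (ad D 1) (Dec V).subtype

/-- The lower bound for the twisted adjoint representation. -/
def TargetEuler : Prop :=
  ∀ (p : ℕ) [Fact p.Prime] (k : Type) [Field k] [Finite k] [Algebra (ZMod p) k] (D : Datum p k),
    EulerGE (ad D 1) (ad D 0)

/-- The bound for framed tangent spaces with auxiliary primes. -/
def TargetTWBound : Prop :=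
  ∀ (p : ℕ) [Fact p.Prime] (k : Type) [Field k] [Finite k] [Algebra (ZMod p) k] (D : Datum p k)
    (S : Finset Nat.Primes), D.bad ⊆ S →
    ∃ r : ℕ, ∀ (n : ℕ) (avoid : Finset Nat.Primes), ∃ Q : Finset Nat.Primes, Q.card = r ∧
      (∀ q ∈ Q, q ∉ avoid ∧ q ∉ S ∧ IsAux D n q) ∧
      ∀ (V : Nat.Primes → VS), (∀ q, (V q).LiesOverPrime (q : ℕ)) →
      ∀ Zloc : ∀ q : Nat.Primes, Submodule (ZMod p) (↥(Dec (V q)) → W k),
        (∀ q ∈ S, IsLoc D (V q) (Zloc q)) →
      ∀ Z : Submodule (ZMod p) (GG → W k),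
        Z ≤ Z1S (ad D 0) (MonoidHom.id GG) (S ∪ Q) →
        (∀ z ∈ Z, ∀ q ∈ S, res1 (p := p) (Dec (V q)).subtype z ∈ Zloc q) →
        FiniteDimensional (ZMod p) ↥Z ∧
          (Module.finrank (ZMod p) ↥Z : ℤ) ≤ deg (p := p) k * (2 + r) +
            ∑ q ∈ S, ((Module.finrank (ZMod p) ↥(Zloc q) : ℤ) - 3 * deg (p := p) k)

end FLTAgent.TWPrimes
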